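import Mathlib.Algebra.Ring.Hom.Defs
import Mathlib.RingTheory.DedekindDomain.Ideal.Lemmas
import Mathlib.Tactic.LinearCombination
import Mathlib.Tactic.Ring

/-!
# The lower numbering

Endomorphisms of a Dedekind domain trivial modulo a prime `P` and their action on the successive
quotients of powers of `P`.
-/

namespace Fermat.Agent.Mazur.Tame

variable {O : Type*} [CommRing O] [IsDedekindDomain O] {P : Ideal O} [P.IsPrime]

/-- A uniformiser at `P` generates `P` modulo `P ^ 2`. -/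
theorem exists_uniformizer_coeff (hP : P ≠ ⊥) {ϖ : O} (hϖ : ϖ ∈ P) (hϖ2 : ϖ ∉ P ^ 2) {x : O}
    (hx : x ∈ P) : ∃ c, x - c * ϖ ∈ P ^ 2 := by
  obtain ⟨J, hJ⟩ : P ∣ Ideal.span {ϖ} :=
      Ideal.dvd_iff_le.2 ((Ideal.span_singleton_le_iff_mem _).2 hϖ)
  have hJP : ¬ J ≤ P := fun h => hϖ2 <| by
    rw [← Ideal.span_singleton_le_iff_mem, hJ, sq]
    exact Ideal.mul_mono_right h
  obtain ⟨j, hj, hjP⟩ := SetLike.not_le_iff_exists.1 hJP
  obtain ⟨y, hy⟩ : ϖ ∣ x * j :=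
    Ideal.mem_span_singleton.1 (hJ ▸ Ideal.mul_mem_mul hx hj)
  obtain ⟨k, i, hi, hk⟩ := (Ideal.IsPrime.isMaximal ‹P.IsPrime› hP).exists_inv hjP
  refine ⟨y * k, ?_⟩
  rw [show x - y * k * ϖ = x * i by linear_combination k * hy - x * hk, sq]
  exact Ideal.mul_mem_mul hx hi

theorem coeff_unique {ϖ : O} (hϖ2 : ϖ ∉ P ^ 2) {c c' x : O} (h : x - c * ϖ ∈ P ^ 2)
    (h' : x - c' * ϖ ∈ P ^ 2) : c - c' ∈ P := by
  have h3 : (c - c') * ϖ ∈ P ^ 2 := by
    rw [show (c - c') * ϖ = (x - c' * ϖ) - (x - c * ϖ) by ring]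
    exact sub_mem h' h
  rcases Ideal.IsPrime.mul_mem_pow P h3 with h4 | h4
  · exact h4
  · exact absurd h4 hϖ2

variable (f : O →+* O)

omit [IsDedekindDomain O] [P.IsPrime] in
theorem map_mem_of_congr (h1 : ∀ x, f x - x ∈ P) {x : O} (hx : x ∈ P) : f x ∈ P := by
  simpa using add_mem (h1 x) hx

omit [IsDedekindDomain O] [P.IsPrime] in
theorem map_mem_pow (h1 : ∀ x ∈ P, f x ∈ P) {i : ℕ} {x : O} (hx : x ∈ P ^ i) : f x ∈ P ^ i := by
  refine Ideal.pow_right_mono (I := Ideal.map f P) (J := P) (Ideal.map_le_iff_le_comap.2 h1) i ?_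
  rw [← Ideal.map_pow]
  exact Ideal.mem_map_of_mem f hx

theorem sub_mem_pow_succ (hP : P ≠ ⊥) {ϖ : O} (hϖ : ϖ ∈ P) (hϖ2 : ϖ ∉ P ^ 2)
    (h1 : ∀ x, f x - x ∈ P) (hw : f ϖ - ϖ ∈ P ^ 2) :
    ∀ {i : ℕ}, ∀ d ∈ P ^ i, f d - d ∈ P ^ (i + 1) := by
  have hst : ∀ x ∈ P, f x ∈ P := fun x hx => map_mem_of_congr f h1 hx
  have base : ∀ d ∈ P, f d - d ∈ P ^ 2 := fun d hd => by
    obtain ⟨c, hc⟩ := exists_uniformizer_coeff hP hϖ hϖ2 hd
    have e : f d - d = (f (d - c * ϖ) - (d - c * ϖ)) + (f c - c) * f ϖ + c * (f ϖ - ϖ) := by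
      rw [map_sub, map_mul]; ring
    rw [e]
    refine add_mem (add_mem (sub_mem (map_mem_pow f hst hc) hc) ?_) (Ideal.mul_mem_left _ _ hw)
    rw [sq]
    exact Ideal.mul_mem_mul (h1 c) (hst ϖ hϖ)
  intro i
  induction i with
  | zero => intro d _; simpa using h1 d
  | succ i ih =>
    intro d hd
    rw [pow_succ] at hd
    induction hd using Submodule.mul_induction_on' with
    | mem_mul_mem a ha b hb =>
      rw [show f (a * b) - a * b = (f a - a) * f b + a * (f b - b) by rw [map_mul]; ring]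
      refine add_mem ?_ ?_
      · rw [pow_succ P (i + 1)]
        exact Ideal.mul_mem_mul (ih a ha) (hst b hb)
      · rw [show i + 1 + 1 = i + 2 from rfl, pow_add]
        exact Ideal.mul_mem_mul ha (base b hb)
    | add a _ b _ ha hb =>
      rw [show f (a + b) - (a + b) = (f a - a) + (f b - b) by rw [map_add]; ring]
      exact add_mem ha hb

/-- The `p`-th iterate goes one step deeper. -/
theorem iterate_step (hP : P ≠ ⊥) {ϖ : O} (hϖ : ϖ ∈ P) (hϖ2 : ϖ ∉ P ^ 2) (h1 : ∀ x, f x - x ∈ P)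
    (hw : f ϖ - ϖ ∈ P ^ 2) {p : ℕ} (hp : (p : O) ∈ P) {i : ℕ} (hi : ∀ x, f x - x ∈ P ^ i)
    (x : O) : f^[p] x - x ∈ P ^ (i + 1) := by
  have key : ∀ k : ℕ, f^[k] x - x - (k : O) * (f x - x) ∈ P ^ (i + 1) := by
    intro k
    induction k with
    | zero => simp
    | succ k ih =>
      have e : f^[k + 1] x - x - ((k + 1 : ℕ) : O) * (f x - x) =
          f (f^[k] x - x - (k : O) * (f x - x)) + (k : O) * (f (f x - x) - (f x - x)) := by
        simp only [Function.iterate_succ_apply', map_sub, map_mul, map_natCast]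
        push_cast; ring
      rw [e]
      exact add_mem (map_mem_pow f (fun _ => map_mem_of_congr f h1) ih)
        (Ideal.mul_mem_left _ _ (sub_mem_pow_succ f hP hϖ hϖ2 h1 hw _ (hi x)))
  have hpd : (p : O) * (f x - x) ∈ P ^ (i + 1) := by
    rw [pow_succ']
    exact Ideal.mul_mem_mul hp (hi x)
  simpa using add_mem (key p) hpd

/-- `σ ^ (p ^ n)` is trivial modulo `P ^ (n + 1)`. -/
theorem iterate_pow_mem (hP : P ≠ ⊥) {ϖ : O} (hϖ : ϖ ∈ P) (hϖ2 : ϖ ∉ P ^ 2)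
    (h1 : ∀ x, f x - x ∈ P) (hw : f ϖ - ϖ ∈ P ^ 2) {p : ℕ} (hp : (p : O) ∈ P) (n : ℕ) :
    ∀ x, (f ^ p ^ n) x - x ∈ P ^ (n + 1) := by
  induction n with
  | zero => simpa using h1
  | succ n ih =>
    intro x
    have h1' : ∀ y, (f ^ p ^ n) y - y ∈ P := fun y => Ideal.pow_le_self n.succ_ne_zero (ih y)
    have hw' : (f ^ p ^ n) ϖ - ϖ ∈ P ^ 2 := by
      cases n with
      | zero => simpa using hw
      | succ n => exact Ideal.pow_le_pow_right (by omega) (ih ϖ)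
    rw [pow_succ p n, pow_mul, RingHom.coe_pow]
    exact iterate_step (f ^ p ^ n) hP hϖ hϖ2 h1' hw' hp ih x

end Fermat.Agent.Mazur.Tame
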