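import Mathlib.NumberTheory.NumberField.Ideal.Basic
import Mathlib.RingTheory.IntegralDomain
import Fermat.Agent.Gal.FiniteLevel
import Fermat.Agent.Mazur.Tame.Level

/-!
# Tame inertia in a finite extension

Tame inertia at `p` seen in a finite normal extension `E/ℚ`: modulo elements whose `p`-power powers
are trivial on `E` it is cyclic, and a Frobenius acts on it by `σ ↦ σ ^ p`.
-/

noncomputable section

namespace Fermat.Agent.Mazur.Tame

open scoped NumberField Pointwise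

local notation "Qbar" => AlgebraicClosure ℚ
local notation "Γℚ" => AlgebraicClosure ℚ ≃ₐ[ℚ] AlgebraicClosure ℚ

variable (E : IntermediateField ℚ (AlgebraicClosure ℚ)) [Normal ℚ E]

/-- The action on the integers of a normal subfield. -/
def res (σ : Γℚ) : 𝓞 E →+* 𝓞 E :=
  NumberField.RingOfIntegers.mapRingHom ((σ.restrictNormal E : E ≃ₐ[ℚ] E) : E →+* E)

theorem coe_res (σ : Γℚ) (x : 𝓞 E) : (((res E σ x : 𝓞 E) : E) : Qbar) = σ ((x : E) : Qbar) :=
  AlgEquiv.restrictNormal_commutes σ E (x : E)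

omit [Normal ℚ E] in
theorem res_inj {x y : 𝓞 E} (h : ((x : E) : Qbar) = ((y : E) : Qbar)) : x = y :=
  NumberField.RingOfIntegers.coe_injective (Subtype.ext h)

theorem res_mul (σ τ : Γℚ) (x : 𝓞 E) : res E (σ * τ) x = res E σ (res E τ x) :=
  res_inj E (by simp [coe_res])

theorem res_one : res E 1 = RingHom.id (𝓞 E) :=
  RingHom.ext fun x => res_inj E (by simp [coe_res])

theorem res_pow (σ : Γℚ) : ∀ k : ℕ, res E (σ ^ k) = res E σ ^ k
  | 0 => by rw [pow_zero, pow_zero, res_one]; rfl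
  | k + 1 => by
    rw [pow_succ σ, pow_succ]
    exact RingHom.ext fun x => by rw [res_mul, res_pow σ k]; rfl

omit [Normal ℚ E] in
theorem coe_mem (A : ValuationSubring Qbar) (x : 𝓞 E) : ((x : E) : Qbar) ∈ A :=
  Gal.mem_of_isIntegral (x.2.map (IsScalarTower.toAlgHom ℤ E Qbar))

variable {E} {A : ValuationSubring (AlgebraicClosure ℚ)}

theorem res_mem (σ : Γℚ) (hσ : σ ∈ A.decompositionSubgroup ℚ) {x : 𝓞 E}
    (hx : x ∈ Gal.placePrime A E) : res E σ x ∈ Gal.placePrime A E := by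
  rw [Gal.mem_placePrime] at hx ⊢
  rw [coe_res]
  exact (Gal.decomposition_mem_nonunits_iff hσ).2 hx

theorem res_sub_mem (σ : Γℚ) (hσ : σ ∈ A.inertiaSubgroupIn ℚ) (x : 𝓞 E) :
    res E σ x - x ∈ Gal.placePrime A E := by
  rw [Gal.mem_placePrime]
  simpa [coe_res] using (Gal.mem_inertia_iff.1 hσ).2 _ (coe_mem E A x)

theorem res_frobenius (φ : Γℚ) {p : ℕ} (hφ : A.IsFrobeniusAt φ p) (x : 𝓞 E) :
    res E φ x - x ^ p ∈ Gal.placePrime A E := by
  rw [Gal.mem_placePrime]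
  simpa [coe_res] using (Gal.isFrobeniusAt_iff.1 hφ).2 _ (coe_mem E A x)

variable [FiniteDimensional ℚ E] {p : ℕ}

/-- In a finite extension, an inertia element fixing a uniformiser mod `P²` has `p`-power order. -/
theorem exists_pow_fix (hA : A.LiesOverPrime p) (hP : Gal.placePrime A E ≠ ⊥) {ϖ : 𝓞 E}
    (hϖ : ϖ ∈ Gal.placePrime A E) (hϖ2 : ϖ ∉ Gal.placePrime A E ^ 2) {σ : Γℚ}
    (hσ : σ ∈ A.inertiaSubgroupIn ℚ) (hw : res E σ ϖ - ϖ ∈ Gal.placePrime A E ^ 2) :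
    ∃ N : ℕ, ∀ a ∈ E, (σ ^ p ^ N) a = a := by
  have : NumberField E := @NumberField.mk _ _ inferInstance inferInstance
  have hp : (p : 𝓞 E) ∈ Gal.placePrime A E := by
    rw [Gal.mem_placePrime]; simpa [ValuationSubring.LiesOverPrime] using hA
  obtain ⟨g, hg⟩ := Finite.exists_infinite_fiber
    (fun n : ℕ => ((σ ^ p ^ n).restrictNormal E : E ≃ₐ[ℚ] E))
  rw [Set.infinite_coe_iff] at hg
  obtain ⟨N, hN⟩ := hg.nonempty
  have hfix : ∀ x : 𝓞 E, res E (σ ^ p ^ N) x = x := fun x => by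
    have hbot := Ideal.iInf_pow_eq_bot_of_isDomain (Gal.placePrime A E)
      (Gal.placePrime_isPrime A E).ne_top
    refine sub_eq_zero.1 ?_
    rw [← Ideal.mem_bot, ← hbot, Submodule.mem_iInf]
    intro m
    obtain ⟨n, hn, hmn⟩ := hg.exists_gt m
    have e : res E (σ ^ p ^ N) = res E (σ ^ p ^ n) := by
      simp only [res, Set.mem_preimage, Set.mem_singleton_iff] at hN hn ⊢
      rw [hN, hn]
    rw [e, res_pow]
    exact Ideal.pow_le_pow_right (by omega) (iterate_pow_mem (res E σ) hP hϖ hϖ2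
      (res_sub_mem σ hσ) hw hp n x)
  refine ⟨N, fun a ha => ?_⟩
  obtain ⟨x, y, -, hxy⟩ := IsFractionRing.div_surjective (A := 𝓞 E) (⟨a, ha⟩ : E)
  have e := congrArg (fun z : E => (z : Qbar)) hxy
  simp only [IntermediateField.coe_div] at e
  rw [← e, map_div₀, ← coe_res, ← coe_res, hfix, hfix]

/-- In a finite normal extension inertia at `p` is cyclic up to `p`-power parts, and a Frobenius
raises it to the power `p` up to these. -/
theorem exists_generator (hp : p.Prime) (hA : A.LiesOverPrime p)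
    (E : IntermediateField ℚ Qbar) [Normal ℚ E] [FiniteDimensional ℚ E] :
    ∃ g ∈ A.inertiaSubgroupIn ℚ,
      (∀ σ ∈ A.inertiaSubgroupIn ℚ, ∃ k N : ℕ, ∀ a ∈ E, (((g ^ k)⁻¹ * σ) ^ p ^ N) a = a) ∧
      ∀ φ : Γℚ, A.IsFrobeniusAt φ p → ∀ σ ∈ A.inertiaSubgroupIn ℚ,
        φ * σ * φ⁻¹ ∈ A.inertiaSubgroupIn ℚ ∧
          ∃ N : ℕ, ∀ a ∈ E, (((σ ^ p)⁻¹ * (φ * σ * φ⁻¹)) ^ p ^ N) a = a := by
  classical
  have : NumberField E := @NumberField.mk _ _ inferInstance inferInstance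
  set P := Gal.placePrime A E with hPdef
  have hpP : (p : 𝓞 E) ∈ P := by
    rw [Gal.mem_placePrime]; simpa [ValuationSubring.LiesOverPrime] using hA
  have hP : P ≠ ⊥ := fun h => by
    rw [h, Ideal.mem_bot, Nat.cast_eq_zero] at hpP
    exact hp.ne_zero hpP
  have : P.IsMaximal := Ideal.IsPrime.isMaximal (Gal.placePrime_isPrime A E) hP
  obtain ⟨ϖ, hϖ, hϖ2⟩ : ∃ ϖ ∈ P, ϖ ∉ P ^ 2 :=
    SetLike.exists_of_lt (by simpa using Ideal.pow_succ_lt_pow hP 1)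
  have hI : ∀ σ ∈ A.inertiaSubgroupIn ℚ, σ ∈ A.decompositionSubgroup ℚ := fun σ hσ =>
    (Gal.mem_inertia_iff.1 hσ).1
  have hco : ∀ σ : A.inertiaSubgroupIn ℚ, ∃ c, res E σ.1 ϖ - c * ϖ ∈ P ^ 2 := fun σ =>
    exists_uniformizer_coeff hP hϖ hϖ2 (res_mem σ.1 (hI _ σ.2) hϖ)
  choose c hc using hco
  have hspec : ∀ (σ : A.inertiaSubgroupIn ℚ) (d : 𝓞 E), res E σ.1 ϖ - d * ϖ ∈ P ^ 2 →
      Ideal.Quotient.mk P (c σ) = Ideal.Quotient.mk P d := fun σ d hd =>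
    Ideal.Quotient.mk_eq_mk_iff_sub_mem _ _ |>.2 (coeff_unique hϖ2 (hc σ) hd)
  let θ : A.inertiaSubgroupIn ℚ →* (𝓞 E ⧸ P)ˣ := MonoidHom.toHomUnits
    { toFun := fun σ => Ideal.Quotient.mk P (c σ)
      map_one' := by
        rw [hspec 1 1 (by simp [res_one]), map_one]
      map_mul' := fun σ τ => by
        rw [← map_mul]
        refine hspec _ _ ?_
        have e : res E (σ * τ).1 ϖ - c σ * c τ * ϖ =
            res E σ.1 (res E τ.1 ϖ - c τ * ϖ) + (res E σ.1 (c τ) - c τ) * res E σ.1 ϖ +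
              c τ * (res E σ.1 ϖ - c σ * ϖ) := by
          rw [Subgroup.coe_mul, res_mul, map_sub, map_mul]; ring
        rw [e]
        refine add_mem (add_mem ?_ ?_) (Ideal.mul_mem_left _ _ (hc σ))
        · exact map_mem_pow _ (fun x hx => res_mem σ.1 (hI _ σ.2) hx) (hc τ)
        · rw [sq]
          exact Ideal.mul_mem_mul (res_sub_mem σ.1 σ.2 _) (res_mem σ.1 (hI _ σ.2) hϖ) }
  have hker : ∀ σ : A.inertiaSubgroupIn ℚ, θ σ = 1 → ∃ N : ℕ, ∀ a ∈ E, (σ.1 ^ p ^ N) a = a := by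
    intro σ hσ
    refine exists_pow_fix hA hP hϖ hϖ2 σ.2 ?_
    have h : Ideal.Quotient.mk P (c σ) = Ideal.Quotient.mk P 1 := by
      simpa [θ] using congrArg Units.val hσ
    rw [show res E σ.1 ϖ - ϖ = (res E σ.1 ϖ - c σ * ϖ) + (c σ - 1) * ϖ by ring, sq]
    refine add_mem ((sq P) ▸ hc σ) (Ideal.mul_mem_mul ?_ hϖ)
    exact (Ideal.Quotient.mk_eq_mk_iff_sub_mem _ _).1 h
  obtain ⟨⟨_, g, rfl⟩, hg⟩ := IsCyclic.exists_generator (α := θ.range)
  refine ⟨g.1, g.2, fun σ hσ => ?_, fun φ hφ σ hσ => ?_⟩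
  · obtain ⟨k, hk⟩ := (mem_powers_iff_mem_zpowers).2 (hg ⟨_, ⟨σ, hσ⟩, rfl⟩)
    have hk' : θ g ^ k = θ ⟨σ, hσ⟩ := by simpa using congrArg Subtype.val hk
    obtain ⟨N, hN⟩ := hker ((g ^ k)⁻¹ * ⟨σ, hσ⟩) (by rw [map_mul, map_inv, map_pow, hk']; simp)
    exact ⟨k, N, by simpa using hN⟩
  · have hd := hφ.mem_decompositionSubgroup
    have hmem : φ * σ * φ⁻¹ ∈ A.inertiaSubgroupIn ℚ := by
      have h := Gal.conj_mem_inertia hσ φ
      rwa [MulAction.mem_stabilizer_iff.1 hd] at h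
    refine ⟨hmem, ?_⟩
    set s : A.inertiaSubgroupIn ℚ := ⟨σ, hσ⟩
    have hθ : θ ⟨_, hmem⟩ = θ (s ^ p) := by
      refine Units.ext ?_
      rw [map_pow, Units.val_pow_eq_pow_val]
      show Ideal.Quotient.mk P (c ⟨_, hmem⟩) = Ideal.Quotient.mk P (c s) ^ p
      rw [← map_pow]
      refine hspec _ _ ?_
      have hd' : φ⁻¹ ∈ A.decompositionSubgroup ℚ := inv_mem hd
      obtain ⟨u, hu⟩ := exists_uniformizer_coeff hP hϖ hϖ2 (res_mem φ⁻¹ hd' hϖ)
      have hback : res E φ (res E φ⁻¹ ϖ) = ϖ := by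
        rw [← res_mul, mul_inv_cancel, res_one]; rfl
      have hσst : ∀ x ∈ P, res E σ x ∈ P := fun x hx => res_mem σ (hI σ hσ) hx
      have h1 : res E σ (res E φ⁻¹ ϖ) - c s * res E φ⁻¹ ϖ ∈ P ^ 2 := by
        have e : res E σ (res E φ⁻¹ ϖ) - c s * res E φ⁻¹ ϖ =
            res E σ (res E φ⁻¹ ϖ - u * ϖ) - c s * (res E φ⁻¹ ϖ - u * ϖ)
              + (res E σ u - u) * res E σ ϖ + u * (res E σ ϖ - c s * ϖ) := by
          rw [map_sub, map_mul]; ring
        rw [e]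
        refine add_mem (add_mem (sub_mem (map_mem_pow _ hσst hu)
          (Ideal.mul_mem_left _ _ hu)) ?_) (Ideal.mul_mem_left _ _ (hc s))
        rw [sq]
        exact Ideal.mul_mem_mul (res_sub_mem σ hσ u) (hσst ϖ hϖ)
      have h2 := map_mem_pow (res E φ) (fun x hx => res_mem φ hd hx) h1
      rw [map_sub, map_mul, hback, ← res_mul, ← res_mul] at h2
      have e : res E (φ * σ * φ⁻¹) ϖ - c s ^ p * ϖ =
          (res E (φ * σ * φ⁻¹) ϖ - res E φ (c s) * ϖ) + (res E φ (c s) - c s ^ p) * ϖ := by ring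
      show res E (φ * σ * φ⁻¹) ϖ - c s ^ p * ϖ ∈ P ^ 2
      rw [e]
      exact add_mem h2 (by rw [sq]; exact Ideal.mul_mem_mul (res_frobenius φ hφ _) hϖ)
    obtain ⟨N, hN⟩ := hker ((s ^ p)⁻¹ * ⟨_, hmem⟩) (by rw [map_mul, map_inv, hθ, inv_mul_cancel])
    exact ⟨N, by simpa [s] using hN⟩

end Fermat.Agent.Mazur.Tame
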