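import Mathlib.GroupTheory.PGroup
import Fermat.Agent.Mazur.Interface
import Fermat.Agent.Mazur.Tame.Inertia
import Fermat.Agent.Tate.Ramified

/-!
# Tame inertia at `p` on `P`-power level

The proof of `TameInertia p P`.
-/

noncomputable section

namespace Fermat.Agent.Mazur

open scoped IntermediateField

local notation "Qbar" => AlgebraicClosure ℚ
local notation "Γℚ" => AlgebraicClosure ℚ ≃ₐ[ℚ] AlgebraicClosure ℚ

namespace Tame

variable {E : IntermediateField ℚ (AlgebraicClosure ℚ)}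

/-- A map to a finite group killed by `Gal(ℚ̄/E)` and with value of `P`-power order kills elements
of `p`-power order on `E`. -/
theorem map_eq_one {p P N : ℕ} (hp : p.Prime) (hP : P.Prime) (hne : p ≠ P) {H : Type} [Group H]
    (π : Γℚ →* H) (hπ : ∀ σ : Γℚ, (∀ a ∈ E, σ a = a) → π σ = 1) {σ : Γℚ}
    (hσ : ∀ a ∈ E, (σ ^ p ^ N) a = a) {M : ℕ} (hM : π σ ^ P ^ M = 1) : π σ = 1 := by
  have h1 : π σ ^ p ^ N = 1 := by rw [← map_pow]; exact hπ _ hσ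
  have h2 : (p ^ N).Coprime (P ^ M) :=
    Nat.Coprime.pow _ _ ((Nat.coprime_primes hp hP).2 hne)
  have := pow_gcd_eq_one.2 ⟨h1, hM⟩
  rwa [h2.gcd_eq_one, pow_one] at this

theorem apply_pow_of_fix {σ : Γℚ} {x ζ : Qbar} (hx : σ x = ζ * x) (hζ : σ ζ = ζ) :
    ∀ k : ℕ, (σ ^ k) x = ζ ^ k * x
  | 0 => by simp
  | k + 1 => by
    rw [pow_succ', AlgEquiv.mul_apply, apply_pow_of_fix hx hζ k, map_mul, map_pow, hζ, hx]
    ring

end Tame

open Tame in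
/-- `TameInertia p P` for distinct primes `p`, `P`. -/
theorem tameInertia {p P : ℕ} (hp : p.Prime) (hP : P.Prime) (hne : p ≠ P) : TameInertia p P := by
  intro A hA
  obtain ⟨π₁, hπ₁⟩ := IsAlgClosed.exists_pow_nat_eq (p : Qbar) hP.pos
  obtain ⟨t, ht, htπ⟩ := Tate.exists_inertia_root_moved hp hA hP (Ne.symm hne) hπ₁
  obtain ⟨φ, hφ⟩ := Gal.exists_isFrobeniusAt hp hA
  refine ⟨t, φ, ht, hφ, ?_⟩
  intro H _ _ π ⟨E₀, hE₀, hπ⟩ hPgrp
  have := hE₀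
  have : FiniteDimensional ℚ ℚ⟮π₁⟯ := IntermediateField.adjoin.finiteDimensional
    (Algebra.IsAlgebraic.isAlgebraic (R := ℚ) π₁).isIntegral
  set E := IntermediateField.normalClosure ℚ (E₀ ⊔ ℚ⟮π₁⟯ : IntermediateField ℚ Qbar) Qbar with hE
  have : Normal ℚ E := normalClosure.normal ℚ _ Qbar
  have hle : E₀ ⊔ ℚ⟮π₁⟯ ≤ E := IntermediateField.le_normalClosure _
  have hπE : ∀ σ : Γℚ, (∀ a ∈ E, σ a = a) → π σ = 1 := fun σ h =>
    hπ σ fun a ha => h a (hle (le_sup_left (a := E₀) ha))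
  have hπ₁E : π₁ ∈ E := hle (le_sup_right (a := E₀) (IntermediateField.mem_adjoin_simple_self ℚ π₁))
  obtain ⟨g, hg, hgen, hfrob⟩ := exists_generator hp hA E
  -- inertia elements of `p`-power order on `E` are killed
  have hkill : ∀ {κ : Γℚ} {N : ℕ}, κ ∈ A.inertiaSubgroupIn ℚ → (∀ a ∈ E, (κ ^ p ^ N) a = a) →
      π κ = 1 := by
    intro κ N hκ hN
    obtain ⟨M, hM⟩ := hPgrp ⟨π κ, Subgroup.mem_map_of_mem π hκ⟩
    exact map_eq_one hp hP hne π hπE hN (M := M) (by simpa using congrArg Subtype.val hM)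
  have hπ₁0 : π₁ ≠ 0 := fun h => by
    rw [h, zero_pow hP.ne_zero] at hπ₁
    exact hp.ne_zero (by exact_mod_cast hπ₁.symm)
  have hPp : ¬ p ∣ P := fun h => hne ((Nat.prime_dvd_prime_iff_eq hp hP).1 h)
  -- the Kummer character
  have hroot : ∀ κ : Γℚ, κ ∈ A.inertiaSubgroupIn ℚ →
      ∃ ζ : Qbar, ζ ^ P = 1 ∧ κ π₁ = ζ * π₁ ∧ κ ζ = ζ := by
    intro κ hκ
    have hζ : (κ π₁ / π₁) ^ P = 1 := by
      rw [div_pow, ← map_pow, hπ₁, map_natCast, div_self (by exact_mod_cast hp.ne_zero)]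
    exact ⟨_, hζ, (div_mul_cancel₀ _ hπ₁0).symm, Gal.inertia_rootOfUnity hp hA hκ hPp hζ⟩
  have hkill₁ : ∀ {κ : Γℚ} {N : ℕ}, κ ∈ A.inertiaSubgroupIn ℚ → (∀ a ∈ E, (κ ^ p ^ N) a = a) →
      κ π₁ = π₁ := by
    intro κ N hκ hN
    obtain ⟨ζ, hζ, hx, hfix⟩ := hroot κ hκ
    have h1 : ζ ^ p ^ N = 1 := by
      have := hN π₁ hπ₁E
      rwa [apply_pow_of_fix hx hfix, mul_eq_right₀ hπ₁0] at this
    have h2 : (p ^ N).Coprime P := Nat.Coprime.pow_left _ ((Nat.coprime_primes hp hP).2 hne)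
    have := pow_gcd_eq_one.2 ⟨h1, hζ⟩
    rw [h2.gcd_eq_one, pow_one] at this
    rw [hx, this, one_mul]
  obtain ⟨a, N, hN⟩ := hgen t ht
  have hκ : (g ^ a)⁻¹ * t ∈ A.inertiaSubgroupIn ℚ := mul_mem (inv_mem (pow_mem hg a)) ht
  have hπt : π t = π g ^ a := by
    have := hkill hκ hN
    rwa [map_mul, map_inv, map_pow, inv_mul_eq_one, eq_comm] at this
  have ha : ¬ P ∣ a := by
    intro hdvd
    obtain ⟨ζ, hζ, hx, hfix⟩ := hroot g hg
    refine htπ ?_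
    obtain ⟨b, rfl⟩ := hdvd
    have h1 : ((g ^ (P * b))⁻¹ * t) π₁ = π₁ := hkill₁ hκ hN
    have h2 : (g ^ (P * b)) π₁ = π₁ := by
      rw [apply_pow_of_fix hx hfix, pow_mul, hζ, one_pow, one_mul]
    calc t π₁ = (g ^ (P * b)) (((g ^ (P * b))⁻¹ * t) π₁) := by
          rw [← AlgEquiv.mul_apply, mul_inv_cancel_left]
      _ = π₁ := by rw [h1, h2]
  obtain ⟨M, hM⟩ := hPgrp ⟨π g, Subgroup.mem_map_of_mem π hg⟩
  have hgM : π g ^ P ^ M = 1 := by simpa using congrArg Subtype.val hM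
  have hcop : a.Coprime (orderOf (π g)) :=
    Nat.Coprime.coprime_dvd_right (orderOf_dvd_of_pow_eq_one hgM)
      (Nat.Coprime.pow_right _ ((hP.coprime_iff_not_dvd.2 ha).symm))
  obtain ⟨m, hm⟩ := exists_pow_eq_self_of_coprime hcop
  refine ⟨fun σ hσ => ?_, ?_⟩
  · obtain ⟨k, N, hN⟩ := hgen σ hσ
    have := hkill (mul_mem (inv_mem (pow_mem hg k)) hσ) hN
    rw [map_mul, map_inv, map_pow, inv_mul_eq_one, eq_comm] at this
    rw [this, ← hm, hπt, ← pow_mul]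
    exact Subgroup.npow_mem_zpowers _ _
  · obtain ⟨hmem, N, hN⟩ := hfrob φ hφ t ht
    have := hkill (mul_mem (inv_mem (pow_mem ht p)) hmem) hN
    rwa [map_mul, map_inv (f := π), map_pow, inv_mul_eq_one, eq_comm] at this

end Fermat.Agent.Mazur
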